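/-
P-SS2 (S36), J-side, row 1014 (helper98): **SS2-J3 COR-RES**.  Corestriction at `q` commutes with
restriction to level `L r`, `r` prime to `q`:
`corA (L r) q (res ψ) = res (corA L q ψ)`, `corB (L r) q (res ψ) = res (corB L q ψ)`.

`corRes (h : CorRewStatement) : CorResStatement`.

Family B is the same family `[[1,k],[0,q]]` at both levels; family A of level `L r` is
`[[1,0],[L r k,1]]`, another system of representatives of `Γ₀(L q) \ Γ₀(L)`
(`Rew2.op_eq_of_equiv`, bijection `k ↦ r k` of `ZMod q`).  In both cases the rewriting at the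
level `L r` is a rewriting at level `L` (`op_resHom`).
-/
import Fermat.Agent.H63.SS2.Interfaces

set_option autoImplicit false
set_option linter.style.haveILetI false
set_option linter.unusedSectionVars false
set_option linter.unusedVariables false

noncomputable section

namespace Fermat.Agent.H98.SS2

open ModularCurve CongruenceSubgroup Matrix.SpecialLinearGroup
open Fermat.Agent.H63.SS2 Fermat.Agent.H21
open scoped MatrixGroups

/-- `Γ₀(N') ≤ Γ₀(N)` for `N ∣ N'`. -/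
theorem gamma0_le_of_dvd {N N' : ℕ} (h : N ∣ N') : Gamma0 N' ≤ Gamma0 N := by
  intro γ hγ
  rw [Gamma0_mem] at hγ ⊢
  have h1 : ((N' : ℕ) : ℤ) ∣ (γ : Matrix (Fin 2) (Fin 2) ℤ) 1 0 :=
    (ZMod.intCast_zmod_eq_zero_iff_dvd _ _).mp hγ
  exact (ZMod.intCast_zmod_eq_zero_iff_dvd _ _).mpr
    (dvd_trans (Int.natCast_dvd_natCast.mpr h) h1)

theorem resHom_apply {N N' : ℕ} (h : N ∣ N') (A : Type*) [AddCommGroup A]
    (φ : Additive (Gamma0 N) →+ A) (γ : Gamma0 N') :
    resHom h A φ (Additive.ofMul γ)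
      = φ (Additive.ofMul (Subgroup.inclusion (gamma0_le_of_dvd h) γ)) := rfl

theorem gamma0ToGL_inclusion {N N' : ℕ} (h : N ∣ N') (γ : Gamma0 N') :
    gamma0ToGL N (Subgroup.inclusion (gamma0_le_of_dvd h) γ) = gamma0ToGL N' γ := rfl

/-- **Restriction commutes with the operator of a family** which is rewriting data at both
pairs of levels. -/
theorem op_resHom {M M' N N' : ℕ} {X : Type*} [Fintype X] {α : X → GL (Fin 2) ℝ}
    (hM : M ∣ M') (hN : N ∣ N')
    (h : Rew2 (gamma0ToGL M) (gamma0ToGL N) α)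
    (h' : Rew2 (gamma0ToGL M') (gamma0ToGL N') α)
    (A : Type*) [AddCommGroup A] (ψ : Additive (Gamma0 M) →+ A) :
    h'.op A (resHom hM A ψ) = resHom hN A (h.op A ψ) := by
  refine AddMonoidHom.ext fun γ => ?_
  obtain ⟨γ, rfl⟩ : ∃ γ₀ : Gamma0 N', Additive.ofMul γ₀ = γ := ⟨Additive.toMul γ, rfl⟩
  rw [resHom_apply, Rew2.op_apply,
    h.op_apply_of_rewriting ψ (Subgroup.inclusion (gamma0_le_of_dvd hN) γ) (h'.tgt γ)
      (fun x => Subgroup.inclusion (gamma0_le_of_dvd hM) (h'.kap γ x))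
      (fun x => h'.spec γ x)]
  exact Finset.sum_congr rfl fun x _ => resHom_apply hM A ψ (h'.kap γ x)

/-! ### the family `A` -/

theorem lowerUni_mul (a b : ℤ) : lowerUni a * lowerUni b = lowerUni (a + b) := by
  apply Subtype.ext
  rw [Matrix.SpecialLinearGroup.coe_mul, lowerUni_coe, lowerUni_coe, lowerUni_coe,
    Matrix.mul_fin_two]
  simp

theorem lowerUni_mem_gamma0 (N : ℕ) (c : ℤ) (h : (N : ℤ) ∣ c) : lowerUni c ∈ Gamma0 N := by
  rw [Gamma0_mem, lowerUni_coe]
  simpa using (ZMod.intCast_zmod_eq_zero_iff_dvd c N).mpr h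

/-- multiplication by `r` on `ZMod q`, `r` prime to `q` -/
def mulEquiv (q r : ℕ) (h : Nat.Coprime r q) : ZMod q ≃ ZMod q :=
  Units.mulLeft (ZMod.unitOfCoprime r h)

theorem mulEquiv_apply (q r : ℕ) (h : Nat.Coprime r q) (k : ZMod q) :
    mulEquiv q r h k = (r : ZMod q) * k := by
  rw [mulEquiv, Units.mulLeft_apply, ZMod.coe_unitOfCoprime]

theorem dvd_mul_val_sub (q r : ℕ) [NeZero q] (k : ZMod q) :
    (q : ℤ) ∣ (r : ℤ) * (k.val : ℤ) - ((((r : ZMod q) * k).val : ℕ) : ℤ) := by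
  rw [← ZMod.intCast_zmod_eq_zero_iff_dvd]
  push_cast
  rw [ZMod.natCast_zmod_val, ZMod.natCast_zmod_val, sub_self]

/-- the correction `[[1,0],[L (r k - (r k mod q)),1]] ∈ Γ₀(L q)` -/
def muA (L q r : ℕ) [NeZero q] (k : ZMod q) : Gamma0 (L * q) :=
  ⟨lowerUni ((L : ℤ) * ((r : ℤ) * (k.val : ℤ) - ((((r : ZMod q) * k).val : ℕ) : ℤ))),
    lowerUni_mem_gamma0 _ _ (by
      push_cast
      exact mul_dvd_mul_left _ (dvd_mul_val_sub q r k))⟩

theorem corFamA_mul_eq (L q r : ℕ) [NeZero q] (hrq : Nat.Coprime r q) (k : ZMod q) :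
    corFamA (L * r) q k
      = gamma0ToGL (L * q) (muA L q r k) * corFamA L q (mulEquiv q r hrq k) := by
  rw [gamma0ToGL_apply, corFamA, corFamA, ← map_mul, mulEquiv_apply]
  congr 1
  show _ = lowerUni _ * lowerUni _
  rw [lowerUni_mul]
  congr 1
  push_cast
  ring

/-- **SS2-J3 (COR-RES).** -/
theorem corRes (h : CorRewStatement) : CorResStatement := by
  intro L q r _ _ _ hq hqL hrq A _ ψ
  haveI : NeZero (L * r) := ⟨Nat.mul_ne_zero (NeZero.ne L) (NeZero.ne r)⟩
  obtain ⟨hA, hB⟩ := h L q hq hqL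
  obtain ⟨hA', hB'⟩ := h (L * r) q hq (Dvd.dvd.mul_right hqL r)
  constructor
  · have hA'' : Rew2 (gamma0ToGL (L * q)) (gamma0ToGL L) (corFamA (L * r) q) :=
      hA.of_equiv (mulEquiv q r hrq) (muA L q r) (corFamA_mul_eq L q r hrq)
    rw [corA_eq hA', corA_eq hA,
      ← hA.op_eq_of_equiv hA'' (mulEquiv q r hrq) (muA L q r) (corFamA_mul_eq L q r hrq)]
    exact op_resHom _ _ hA'' hA' A ψ
  · rw [corB_eq hB', corB_eq hB]
    exact op_resHom _ _ hB hB' A ψ

end Fermat.Agent.H98.SS2
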